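import Fermat.Agent.S43.Lev.Main
import Fermat.Agent.ES.B.Trans

/-!
# S43 / Lev / ES : the level tower on `ES.Kum N m`  (`Kum.trans`, `Kum.incl` of `ES/B/Trans.lean`)

* (L1) `incl_injective`;
* (L2) `exists_incl_eq`   : `m' • x = 0 → x ∈ range (Kum.incl N m' k)`;
* (L3) `trans_surjective`;
* (L4) `trans_eq_zero_iff` : `Kum.trans x = 0 ↔ x ∈ m' • Kum N (m' * k)`.
-/

set_option autoImplicit false

open AlgebraicCurve ModularCurve

namespace Fermat.Agent.S43.Lev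

open Fermat.Agent.ES Fermat.Agent.S15.W

noncomputable section

variable {N m' : ℕ}

/-- the chosen embedding `ℚ̄ → ℂ`. -/
def jC : Qb →+* ℂ :=
  have : Algebra.IsAlgebraic ℚ (AlgebraicClosure ℚ) :=
    (inferInstance : @Algebra.IsAlgebraic ℚ (AlgebraicClosure ℚ) _ _
      (AlgebraicClosure.instAlgebra ℚ))
  ((IsAlgClosed.lift : AlgebraicClosure ℚ →ₐ[ℚ] ℂ) : AlgebraicClosure ℚ →+* ℂ)

theorem toB1_trans {m : ℕ} (h : m' ∣ m) (x : ES.Kum N m) :
    toB1 N m' (ES.Kum.trans N h x) = transK Qb (FF N) h (toB1 N m x) := by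
  obtain ⟨f, rfl⟩ := ES.Kum.mk_surjective x
  rfl

theorem toB1_incl (k : ℕ) (x : ES.Kum N m') :
    toB1 N (m' * k) (ES.Kum.incl N m' k x) = inclK Qb (FF N) m' k (toB1 N m' x) := by
  obtain ⟨f, rfl⟩ := ES.Kum.mk_surjective x
  rfl

/-- (L1). -/
theorem incl_injective (hm' : m' ≠ 0) {k : ℕ} (hk : k ≠ 0) :
    Function.Injective (ES.Kum.incl N m' k) := by
  intro x y hxy
  have h := congrArg (toB1 N (m' * k)) hxy
  rw [toB1_incl, toB1_incl] at h
  exact (toB1 N m').injective (inclK_injective hm' hk h)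

/-- (L2). -/
theorem exists_incl_eq (hm' : m' ≠ 0) {k : ℕ} (hk : k ≠ 0) (x : ES.Kum N (m' * k))
    (hx : m' • x = 0) : ∃ y : ES.Kum N m', ES.Kum.incl N m' k y = x := by
  have hx' : m' • toB1 N (m' * k) x = 0 := by rw [← map_nsmul, hx, map_zero]
  obtain ⟨y, hy⟩ := exists_inclK_eq hm' hk (toB1 N (m' * k) x) hx'
  refine ⟨(toB1 N m').symm y, (toB1 N (m' * k)).injective ?_⟩
  rw [toB1_incl, AddEquiv.apply_symm_apply, hy]

variable [NeZero N]

/-- (L3). -/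
theorem trans_surjective (hm' : m' ≠ 0) {k : ℕ} (hk : k ≠ 0) :
    Function.Surjective (ES.Kum.trans N (dvd_mul_right m' k)) := by
  have : S26.FF1 Qb (FF N) := S17.G.ff1_of_isFF _ (S17.FL Qb N)
  intro y
  obtain ⟨x, hx⟩ := transK_surjective (K := Qb) (F := FF N) jC hm' hk (toB1 N m' y)
  refine ⟨(toB1 N (m' * k)).symm x, (toB1 N m').injective ?_⟩
  rw [toB1_trans, AddEquiv.apply_symm_apply, hx]

/-- (L4). -/
theorem trans_eq_zero_iff (hm' : m' ≠ 0) {k : ℕ} (hk : k ≠ 0) (x : ES.Kum N (m' * k)) :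
    ES.Kum.trans N (dvd_mul_right m' k) x = 0 ↔ ∃ y : ES.Kum N (m' * k), m' • y = x := by
  have : S26.FF1 Qb (FF N) := S17.G.ff1_of_isFF _ (S17.FL Qb N)
  have h := transK_eq_zero_iff (K := Qb) (F := FF N) jC hm' hk (toB1 N (m' * k) x)
  rw [← toB1_trans, AddEquiv.map_eq_zero_iff] at h
  rw [h]
  constructor
  · rintro ⟨y, hy⟩
    refine ⟨(toB1 N (m' * k)).symm y, (toB1 N (m' * k)).injective ?_⟩
    rw [map_nsmul, AddEquiv.apply_symm_apply, hy]
  · rintro ⟨y, rfl⟩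
    exact ⟨toB1 N (m' * k) y, (map_nsmul _ _ _).symm⟩

end

end Fermat.Agent.S43.Lev
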