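import Fermat.Agent.S15.W.Interface
import Fermat.Agent.S17.G.FromS27

/-!
# S43 / Lev : the level tower on Kummer modules (generic function field)

`K` algebraically closed of characteristic `0`, `F/K` a function field (`S26.FF1`), `Kum K F m = S48.B1.Kum K F m = Pic⁰(F)[m]`.

* `transK (h : m' ∣ m) : Kum K F m →+ Kum K F m'`   (`[f] ↦ [f]`;  on `Pic⁰` : multiplication by `m / m'`);
* `inclK m' k : Kum K F m' →+ Kum K F (m' * k)`      (`[f] ↦ [f ^ k]`; on `Pic⁰` : the inclusion);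
* `transK_inclK`, `inclK_transK` : both composites are multiplication by `k`;
* naturality for `Kum.map` and `Kum.semi`;
* (L1) `inclK_injective`;
* (L2) `exists_inclK_eq` : `m' • x = 0 → x ∈ range (inclK m' k)`;
* (L3) `transK_surjective` (divisibility of `Pic⁰`);
* (L4) `transK_eq_zero_iff` : `transK x = 0 ↔ x ∈ m' • Kum K F (m' * k)`.
-/

set_option autoImplicit false

namespace Fermat.Agent.S43.Lev

open AlgebraicCurve Fermat.Agent.S26 Fermat.Agent.S48.B1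

noncomputable section

variable {K F : Type*} [Field K] [Field F] [Algebra K F] {m m' m'' : ℕ}

theorem mem_Dm_of_dvd (h : m' ∣ m) {f : Fˣ} (hf : f ∈ Dm K F m) : f ∈ Dm K F m' := fun P =>
  (Int.natCast_dvd_natCast.mpr h).trans (hf P)

theorem mem_Pw_of_dvd (h : m' ∣ m) {f : Fˣ} (hf : f ∈ Pw F m) : f ∈ Pw F m' := by
  obtain ⟨c, rfl⟩ := h
  obtain ⟨g, rfl⟩ := hf
  exact ⟨g ^ c, by simp [mul_comm, ← pow_mul]⟩

variable (K F) in
/-- `Dm m ≤ Dm m'` for `m' ∣ m`. -/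
def dmIncl (h : m' ∣ m) : Dm K F m →* Dm K F m' :=
  Subgroup.inclusion fun _ hf => mem_Dm_of_dvd h hf

theorem coe_dmIncl (h : m' ∣ m) (f : Dm K F m) : (dmIncl K F h f : Fˣ) = f := rfl

variable (K F) in
/-- the transition map `[f] ↦ [f]`. -/
def transK (h : m' ∣ m) : Kum K F m →+ Kum K F m' :=
  MonoidHom.toAdditive (QuotientGroup.map _ _ (dmIncl K F h) (by
    rintro ⟨f, hf⟩ hfP
    rw [Subgroup.mem_subgroupOf] at hfP
    rw [Subgroup.mem_comap, Subgroup.mem_subgroupOf]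
    exact mem_Pw_of_dvd h hfP))

theorem transK_mk (h : m' ∣ m) (f : Dm K F m) :
    transK K F h (Kum.mk f) = Kum.mk (dmIncl K F h f) := rfl

theorem transK_refl (x : Kum K F m) : transK K F (dvd_refl m) x = x := by
  obtain ⟨f, rfl⟩ := Kum.mk_surjective x
  rfl

theorem transK_transK (h : m' ∣ m) (h' : m'' ∣ m') (x : Kum K F m) :
    transK K F h' (transK K F h x) = transK K F (h'.trans h) x := by
  obtain ⟨f, rfl⟩ := Kum.mk_surjective x
  rfl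

theorem transK_map (h : m' ∣ m) (φ : Fˣ →* Fˣ) (hD : ∀ f ∈ Dm K F m, φ f ∈ Dm K F m)
    (hD' : ∀ f ∈ Dm K F m', φ f ∈ Dm K F m') (x : Kum K F m) :
    transK K F h (Kum.map φ hD x) = Kum.map φ hD' (transK K F h x) := by
  obtain ⟨f, rfl⟩ := Kum.mk_surjective x
  rfl

theorem transK_semi (h : m' ∣ m) (g : SemilinearAut K F) (x : Kum K F m) :
    transK K F h (Kum.semi g x) = Kum.semi g (transK K F h x) := by
  obtain ⟨f, rfl⟩ := Kum.mk_surjective x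
  rfl

theorem transK_nsmul (h : m' ∣ m) (x : Kum K F m) : transK K F h (m' • x) = 0 := by
  rw [map_nsmul, Kum.nsmul_eq_zero]

theorem pow_mem_Dm_mul (k : ℕ) {f : Fˣ} (hf : f ∈ Dm K F m') : f ^ k ∈ Dm K F (m' * k) := by
  intro P
  have h1 : ((f ^ k : Fˣ) : F) = (f : F) ^ (k : ℤ) := by simp
  rw [h1, P.ord_zpow]
  obtain ⟨c, hc⟩ := hf P
  exact ⟨c, by rw [hc]; push_cast; ring⟩

variable (K F) in
/-- `f ↦ f ^ k`, `Dm m' → Dm (m' * k)`. -/
def dmPow (m' k : ℕ) : Dm K F m' →* Dm K F (m' * k) :=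
  ((powMonoidHom k : Fˣ →* Fˣ).comp (Dm K F m').subtype).codRestrict _
    fun f => pow_mem_Dm_mul k f.2

theorem coe_dmPow (k : ℕ) (f : Dm K F m') : (dmPow K F m' k f : Fˣ) = (f : Fˣ) ^ k := rfl

variable (K F) in
/-- the inclusion `[f] ↦ [f ^ k]`. -/
def inclK (m' k : ℕ) : Kum K F m' →+ Kum K F (m' * k) :=
  MonoidHom.toAdditive (QuotientGroup.map _ _ (dmPow K F m' k) (by
    rintro ⟨f, hf⟩ hfP
    rw [Subgroup.mem_subgroupOf] at hfP
    obtain ⟨g, hg⟩ := hfP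
    rw [Subgroup.mem_comap, Subgroup.mem_subgroupOf]
    refine ⟨g, ?_⟩
    have hg' : g ^ m' = f := hg
    show g ^ (m' * k) = f ^ k
    rw [pow_mul, hg']))

theorem inclK_mk (k : ℕ) (f : Dm K F m') :
    inclK K F m' k (Kum.mk f) = Kum.mk (dmPow K F m' k f) := rfl

theorem transK_inclK (k : ℕ) (x : Kum K F m') :
    transK K F (dvd_mul_right m' k) (inclK K F m' k x) = k • x := by
  obtain ⟨f, rfl⟩ := Kum.mk_surjective x
  rw [← Kum.mk_pow]
  rfl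

theorem inclK_transK (k : ℕ) (x : Kum K F (m' * k)) :
    inclK K F m' k (transK K F (dvd_mul_right m' k) x) = k • x := by
  obtain ⟨f, rfl⟩ := Kum.mk_surjective x
  rw [← Kum.mk_pow]
  rfl

theorem inclK_map (k : ℕ) (φ : Fˣ →* Fˣ) (hD : ∀ f ∈ Dm K F m', φ f ∈ Dm K F m')
    (hD' : ∀ f ∈ Dm K F (m' * k), φ f ∈ Dm K F (m' * k)) (x : Kum K F m') :
    inclK K F m' k (Kum.map φ hD x) = Kum.map φ hD' (inclK K F m' k x) := by
  obtain ⟨f, rfl⟩ := Kum.mk_surjective x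
  rw [Kum.map_mk, inclK_mk, inclK_mk, Kum.map_mk]
  congr 1
  apply Subtype.ext
  show (φ f) ^ k = φ ((f : Fˣ) ^ k)
  rw [map_pow]

theorem inclK_semi (k : ℕ) (g : SemilinearAut K F) (x : Kum K F m') :
    inclK K F m' k (Kum.semi g x) = Kum.semi g (inclK K F m' k x) := by
  obtain ⟨f, rfl⟩ := Kum.mk_surjective x
  rw [Kum.semi_mk, inclK_mk, inclK_mk, Kum.semi_mk]
  congr 1
  apply Subtype.ext
  show (semiU g f) ^ k = semiU g ((f : Fˣ) ^ k)
  rw [map_pow]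

/-! ### exactness -/

section Closed

variable [IsAlgClosed K]

/-- a root of unity of `F` is an `n`-th power of a constant, for every `n ≠ 0`. -/
theorem exists_const_pow {k : ℕ} (hk : k ≠ 0) (n : ℕ) (hn : n ≠ 0) (u : Fˣ) (hu : u ^ k = 1) :
    ∃ c : Fˣ, c ^ n = u ∧ ∀ P : Place K F, P.ord (c : F) = 0 := by
  have hu' : (u : F) ^ k = 1 := by
    have := congrArg (fun z : Fˣ => (z : F)) hu
    simpa using this
  have halg : IsAlgebraic K (u : F) := by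
    refine ⟨Polynomial.X ^ k - 1, ?_, by simp [hu']⟩
    exact Polynomial.X_pow_sub_C_ne_zero (Nat.pos_of_ne_zero hk) (1 : K)
  obtain ⟨a, ha⟩ := Fermat.Agent.S24.FF.DegOne.exists_algebraMap_eq_of_isAlgebraic K halg
  obtain ⟨b, hb⟩ := IsAlgClosed.exists_pow_nat_eq a (Nat.pos_of_ne_zero hn)
  have hb0 : algebraMap K F b ≠ 0 := by
    intro h
    have h1 : (u : F) = 0 := by
      rw [← ha, ← hb, map_pow, h, zero_pow hn]
    exact u.ne_zero h1
  refine ⟨Units.mk0 _ hb0, Units.ext ?_, fun P => ?_⟩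
  · show (algebraMap K F b) ^ n = (u : F)
    rw [← map_pow, hb, ha]
  · exact Fermat.Agent.S24.FF.ord_algebraMap P b

/-- (L1). -/
theorem inclK_injective (hm' : m' ≠ 0) {k : ℕ} (hk : k ≠ 0) :
    Function.Injective (inclK K F m' k) := by
  rw [injective_iff_map_eq_zero]
  intro x hx
  obtain ⟨f, rfl⟩ := Kum.mk_surjective x
  rw [inclK_mk, Kum.mk_eq_zero_iff] at hx
  obtain ⟨h, hh⟩ := hx
  have hh' : h ^ (m' * k) = (f : Fˣ) ^ k := hh
  have h1 : ((f : Fˣ) * (h ^ m')⁻¹) ^ k = 1 := by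
    rw [mul_pow, inv_pow, ← pow_mul, hh', mul_inv_cancel]
  obtain ⟨c, hc, -⟩ := exists_const_pow (K := K) hk m' hm' _ h1
  rw [Kum.mk_eq_zero_iff]
  refine ⟨c * h, ?_⟩
  rw [mul_pow, hc, inv_mul_cancel_right]

/-- (L2). -/
theorem exists_inclK_eq (hm' : m' ≠ 0) {k : ℕ} (hk : k ≠ 0) (x : Kum K F (m' * k))
    (hx : m' • x = 0) : ∃ y : Kum K F m', inclK K F m' k y = x := by
  obtain ⟨f, rfl⟩ := Kum.mk_surjective x
  rw [← Kum.mk_pow, Kum.mk_eq_zero_iff] at hx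
  obtain ⟨h, hh⟩ := hx
  have hh' : h ^ (m' * k) = (f : Fˣ) ^ m' := hh
  have h1 : ((f : Fˣ) * (h ^ k)⁻¹) ^ m' = 1 := by
    rw [mul_pow, inv_pow, ← pow_mul, mul_comm k m', hh', mul_inv_cancel]
  obtain ⟨c, hc, hc0⟩ := exists_const_pow (K := K) hm' k hk _ h1
  have hf : (f : Fˣ) = (c * h) ^ k := by
    rw [mul_pow, hc, inv_mul_cancel_right]
  have hD : c * h ∈ Dm K F m' := by
    intro P
    have h2 := f.2 P
    rw [hf] at h2
    have h3 : (((c * h) ^ k : Fˣ) : F) = ((c * h : Fˣ) : F) ^ (k : ℤ) := by simp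
    rw [h3, P.ord_zpow] at h2
    have hk' : (k : ℤ) ≠ 0 := Int.natCast_ne_zero.2 hk
    have h4 : (k : ℤ) * (m' : ℤ) ∣ (k : ℤ) * P.ord ((c * h : Fˣ) : F) := by
      have : ((m' * k : ℕ) : ℤ) = (k : ℤ) * (m' : ℤ) := by push_cast; ring
      rwa [this] at h2
    exact (mul_dvd_mul_iff_left hk').1 h4
  refine ⟨Kum.mk ⟨c * h, hD⟩, ?_⟩
  rw [inclK_mk]
  congr 1
  exact Subtype.ext hf.symm

end Closed

section Div

variable [IsAlgClosed K] [CharZero K] [FF1 K F]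

/-- divisibility of `Pic⁰`, on divisors. -/
theorem exists_eq_nsmul_add_div (j : K →+* ℂ) (r : ℕ) (hr : 0 < r)
    (E : Divisor.degZero (K := K) (F := F)) :
    ∃ (E' : Divisor.degZero (K := K) (F := F)) (g : F), g ≠ 0 ∧
      ∀ P : Place K F, (E : Divisor K F) P = r * (E' : Divisor K F) P + P.ord g := by
  obtain ⟨y, hy⟩ := S17.G.pic0_divisible K F j r hr (Pic0.mk E)
  obtain ⟨E', rfl⟩ := Pic0.mk_surjective y
  have h1 : (QuotientAddGroup.mk (r • E') : Pic0 K F) = QuotientAddGroup.mk E := hy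
  rw [QuotientAddGroup.eq] at h1
  obtain ⟨g, hg, hgE⟩ := (AddSubgroup.mem_addSubgroupOf.mp h1 :
    ((-(r • E') + E : Divisor.degZero (K := K) (F := F)) : Divisor K F)
      ∈ Divisor.principal (K := K) (F := F))
  refine ⟨E', g, hg, fun P => ?_⟩
  have h2 := hgE P
  simp only [AddSubgroup.coe_add, AddSubgroup.coe_neg, AddSubgroup.coe_nsmul, Finsupp.add_apply,
    Finsupp.neg_apply, Finsupp.smul_apply, nsmul_eq_mul] at h2
  linarith

/-- (L3). -/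
theorem transK_surjective (j : K →+* ℂ) (hm' : m' ≠ 0) {k : ℕ} (hk : k ≠ 0) :
    Function.Surjective (transK K F (dvd_mul_right m' k)) := by
  intro y
  obtain ⟨g, rfl⟩ := Kum.mk_surjective y
  have hg : S15.W.IsDm K m' ((g : Fˣ) : F) := S15.W.isDm_coe g
  obtain ⟨E', φ, hφ, hE⟩ := exists_eq_nsmul_add_div j k (Nat.pos_of_ne_zero hk)
    ⟨S15.W.Dv K m' ((g : Fˣ) : F), S15.W.degree_Dv hm' hg⟩
  have hD : (g : Fˣ) * (Units.mk0 φ hφ ^ m')⁻¹ ∈ Dm K F (m' * k) := by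
    intro P
    have h1 : S15.W.Dv K m' ((g : Fˣ) : F) P = k * (E' : Divisor K F) P + P.ord φ := hE P
    rw [S15.W.Dv_apply] at h1
    have h2 : (m' : ℤ) * (P.ord ((g : Fˣ) : F) / (m' : ℤ)) = P.ord ((g : Fˣ) : F) :=
      Int.mul_ediv_cancel' (hg.2 P)
    have h3 : (((g : Fˣ) * (Units.mk0 φ hφ ^ m')⁻¹ : Fˣ) : F)
        = ((g : Fˣ) : F) * (φ ^ (m' : ℤ))⁻¹ := by simp
    rw [h3, P.ord_mul (g : Fˣ).ne_zero (inv_ne_zero (zpow_ne_zero _ hφ)), P.ord_inv, P.ord_zpow]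
    refine ⟨(E' : Divisor K F) P, ?_⟩
    push_cast
    linear_combination (-1 : ℤ) * h2 + (m' : ℤ) * h1
  refine ⟨Kum.mk ⟨_, hD⟩, ?_⟩
  rw [transK_mk, Kum.mk_eq_mk_iff]
  refine ⟨(Units.mk0 φ hφ)⁻¹, ?_⟩
  show _ = (g : Fˣ) * (Units.mk0 φ hφ ^ m')⁻¹ * (g : Fˣ)⁻¹
  rw [inv_pow, mul_comm (g : Fˣ), mul_inv_cancel_right]

/-- (L4). -/
theorem transK_eq_zero_iff (j : K →+* ℂ) (hm' : m' ≠ 0) {k : ℕ} (hk : k ≠ 0)
    (x : Kum K F (m' * k)) :
    transK K F (dvd_mul_right m' k) x = 0 ↔ ∃ y : Kum K F (m' * k), m' • y = x := by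
  constructor
  · intro hx
    obtain ⟨f, rfl⟩ := Kum.mk_surjective x
    rw [transK_mk, Kum.mk_eq_zero_iff] at hx
    obtain ⟨h, hh⟩ := hx
    have hh' : h ^ m' = (f : Fˣ) := hh
    have hD : h ∈ Dm K F k := by
      intro P
      have h2 := f.2 P
      rw [← hh'] at h2
      have h3 : ((h ^ m' : Fˣ) : F) = (h : F) ^ (m' : ℤ) := by simp
      rw [h3, P.ord_zpow] at h2
      have hm0 : (m' : ℤ) ≠ 0 := Int.natCast_ne_zero.2 hm'
      have h4 : (m' : ℤ) * (k : ℤ) ∣ (m' : ℤ) * P.ord (h : F) := by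
        have : ((m' * k : ℕ) : ℤ) = (m' : ℤ) * (k : ℤ) := by push_cast; ring
        rwa [this] at h2
      exact (mul_dvd_mul_iff_left hm0).1 h4
    obtain ⟨y, hy⟩ := transK_surjective (K := K) (F := F) j hk hm' (Kum.mk ⟨h, hD⟩)
    obtain ⟨y₀, rfl⟩ := Kum.mk_surjective y
    rw [transK_mk, Kum.mk_eq_mk_iff] at hy
    obtain ⟨e, he⟩ := hy
    have he' : e ^ k = (y₀ : Fˣ) * h⁻¹ := he
    have hy₀ : (y₀ : Fˣ) ∈ Dm K F (m' * k) := by
      have h5 := y₀.2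
      have h6 : Dm K F (k * m') = Dm K F (m' * k) := by rw [mul_comm]
      exact h6 ▸ h5
    refine ⟨Kum.mk ⟨y₀, hy₀⟩, ?_⟩
    rw [← Kum.mk_pow, Kum.mk_eq_mk_iff]
    refine ⟨e, ?_⟩
    show e ^ (m' * k) = (y₀ : Fˣ) ^ m' * (f : Fˣ)⁻¹
    have h7 : e ^ (m' * k) = (e ^ k) ^ m' := by rw [← pow_mul, mul_comm]
    rw [h7, he', mul_pow, inv_pow, hh']
  · rintro ⟨y, rfl⟩
    exact transK_nsmul _ y

end Div

end

end Fermat.Agent.S43.Lev
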